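import Fermat.Agent.S36.Mod3.H356.RegUAbs
import Fermat.Agent.S36.Mod3.Spec
import Fermat.Agent.S36.H438.Unit
import Fermat.Agent.A2.Mod.H553.Vinf

/-!
# S36 / MOD3, cell REG (route R4), piece (R-U): the modular unit `U_m` (helper356)

`U_m = α(D) / β(D) = Δ(t^q)² / (Δ(t) Δ(t^{q²}))`, `D = q¹² Δ(t^q)/Δ(t)` the modular unit of
helper438 (`S36/H438/Unit.lean`, `dE`) at level `M q`, `α, β : F_{Mq} → F_{Mqq}` the two degeneracy
maps.  This is the element `αE (dE) * (βE (dE))⁻¹` of helper922's `h922_hres_mid`.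

For the concrete objects of `Mod3/Spec.lean` (`Std`, `Objs`):

* `U_m` lies in the finite chart `Bf = chart R {x3E}`, and there is `d ∈ Bf` with
  `U_m · d = w ^ 12`                                  (`exists_pair`);
* `U_m` is a unit of `V₁` and of `V₃`                 (`unit₁`, `unit₃`, with `mem₁`, `mem₃`);
* `U_m / w ^ 12` is a unit of `V₂`                    (`val₂`);
* `U_m / t ^ (12 (q - 1))` is a unit of `V₂` for EVERY uniformiser `t` of `V₂`   (`val₂'`).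

These are the hypotheses `x U d`, `hUd`, `hU₁`, `hU₃`, `hU₂` (with `k = 12`, `N = 12 (q - 1)`) of
`S36.H878.principalAt_of_unit_self'`.

    leafRegU_of : LeafTable → LeafQep → LeafChart → LeafVal → LeafRegU

(`LeafTable`: the comap table; `LeafQep`: `qep_f`; `LeafChart`: `chart_α`, `chart_β`;
`LeafVal`: `ram₂`.)  `leafRegU_core_of` does not need `LeafVal` and gives all but `val₂'`.
-/

set_option autoImplicit false
set_option linter.style.haveILetI false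
set_option linter.unusedSectionVars false
set_option linter.unusedVariables false
set_option synthInstance.maxHeartbeats 400000
set_option maxHeartbeats 1600000

noncomputable section

namespace Fermat.Agent.S36.Mod3.H356

open ModularCurve AlgebraicCurve
open Fermat.Agent.S18.H138 (chart)
open Fermat.Agent.S36.Eng Fermat.Agent.S36.Mod3

/-! ## The base: `q = w · unit` -/

section Base

variable (P : ValuationSubring A2.Qb) (E : IntermediateField ℚ A2.Qb)

/-- A non-unit of `R_E` is a non-unit of `P`. -/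
theorem coe_mem_nonunits_h356 (r : A2.RE P E) (hr : ¬ IsUnit r) :
    ((r : E) : A2.Qb) ∈ P.nonunits := by
  rw [ValuationSubring.mem_nonunits_iff]
  by_contra hge
  rw [not_lt] at hge
  apply hr
  have hr0 : (r : E) ≠ 0 := by
    intro h0
    rw [h0] at hge
    simp at hge
  have hinv : ((r : E))⁻¹ ∈ A2.RE P E := by
    show algebraMap E A2.Qb ((r : E))⁻¹ ∈ P
    rw [map_inv₀, ← P.valuation_le_one_iff, map_inv₀]
    exact inv_le_one_of_one_le₀ hge
  refine isUnit_iff_exists_inv.mpr ⟨⟨_, hinv⟩, Subtype.ext ?_⟩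
  show (r : E) * ((r : E))⁻¹ = 1
  exact mul_inv_cancel₀ hr0

/-- **Unramified base**: `q = w · u` with `u` a unit of `R_E`. -/
theorem exists_unit_q_eq_h356 {q : ℕ} [NeZero q] (hP : P.LiesOverPrime q)
    (hun : Unramified P E q) {w : A2.RE P E} (hw : Irreducible w) :
    ∃ u v : A2.RE P E, u * v = 1 ∧ ((q : ℕ) : E) = (w : E) * (u : E) := by
  have hq0 : ((q : ℕ) : E) ≠ 0 := Nat.cast_ne_zero.mpr (NeZero.ne q)
  have hw0 : (w : E) ≠ 0 := fun h0 => hw.ne_zero (Subtype.ext h0)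
  -- `w / q ∈ R_E`
  have hv : (w : E) * ((q : ℕ) : E)⁻¹ ∈ A2.RE P E := by
    show algebraMap E A2.Qb ((w : E) * ((q : ℕ) : E)⁻¹) ∈ P
    rw [map_mul, map_inv₀, map_natCast]
    exact hun.2 (w : E) (coe_mem_nonunits_h356 P E w hw.not_isUnit)
  -- `q / w ∈ R_E`
  have hu : ((q : ℕ) : E) * ((w : E))⁻¹ ∈ A2.RE P E := by
    by_contra hcon
    -- then `w / q ∈ 𝔪`, so `q ∈ P.nonunits` gives `w = (w/q) q`, `w / q` a non-unit: then
    -- `w` would be a product of two non-units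
    have hqR : ((q : ℕ) : E) ∈ A2.RE P E := by
      show algebraMap E A2.Qb ((q : ℕ) : E) ∈ P
      rw [map_natCast]
      exact P.nonunits_le hP
    have hqnu : ¬ IsUnit (⟨((q : ℕ) : E), hqR⟩ : A2.RE P E) := by
      intro hunit
      obtain ⟨b, hb⟩ := isUnit_iff_exists_inv.mp hunit
      have hbE : ((q : ℕ) : E) * (b : E) = 1 := congrArg Subtype.val hb
      have hbP : algebraMap E A2.Qb (b : E) ∈ P := b.2
      have hbeq : (b : E) = (((q : ℕ) : E))⁻¹ := eq_inv_of_mul_eq_one_right hbE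
      rw [hbeq, map_inv₀, map_natCast] at hbP
      have hlt : P.valuation ((q : ℕ) : A2.Qb) < 1 := (P.mem_nonunits_iff).1 hP
      have hle : P.valuation (((q : ℕ) : A2.Qb))⁻¹ ≤ 1 := (P.valuation_le_one_iff _).2 hbP
      have hqQ : ((q : ℕ) : A2.Qb) ≠ 0 := Nat.cast_ne_zero.mpr (NeZero.ne q)
      have h1 : P.valuation ((q : ℕ) : A2.Qb) * P.valuation (((q : ℕ) : A2.Qb))⁻¹ = 1 := by
        rw [← map_mul, mul_inv_cancel₀ hqQ, map_one]
      have h2 : P.valuation ((q : ℕ) : A2.Qb) * P.valuation (((q : ℕ) : A2.Qb))⁻¹ < 1 :=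
        mul_lt_one_of_lt_of_le hlt hle
      rw [h1] at h2
      exact lt_irrefl _ h2
    have hvnu : ¬ IsUnit (⟨(w : E) * ((q : ℕ) : E)⁻¹, hv⟩ : A2.RE P E) := by
      intro hunit
      obtain ⟨b, hb⟩ := isUnit_iff_exists_inv.mp hunit
      have hbE : (w : E) * ((q : ℕ) : E)⁻¹ * (b : E) = 1 := congrArg Subtype.val hb
      apply hcon
      have hbeq : (b : E) = ((q : ℕ) : E) * ((w : E))⁻¹ := by
        have h3 : (w : E) * ((q : ℕ) : E)⁻¹ ≠ 0 := mul_ne_zero hw0 (inv_ne_zero hq0)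
        have h4 : (b : E) = ((w : E) * ((q : ℕ) : E)⁻¹)⁻¹ := eq_inv_of_mul_eq_one_right hbE
        rw [h4, mul_inv, inv_inv, mul_comm]
      rw [← hbeq]
      exact b.2
    have hprod : w = (⟨(w : E) * ((q : ℕ) : E)⁻¹, hv⟩ : A2.RE P E) * ⟨((q : ℕ) : E), hqR⟩ := by
      apply Subtype.ext
      show (w : E) = (w : E) * ((q : ℕ) : E)⁻¹ * ((q : ℕ) : E)
      rw [mul_assoc, inv_mul_cancel₀ hq0, mul_one]
    rcases hw.isUnit_or_isUnit hprod with h | h
    · exact hvnu h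
    · exact hqnu h
  refine ⟨⟨_, hu⟩, ⟨_, hv⟩, Subtype.ext ?_, ?_⟩
  · show ((q : ℕ) : E) * ((w : E))⁻¹ * ((w : E) * ((q : ℕ) : E)⁻¹) = 1
    field_simp
  · show ((q : ℕ) : E) = (w : E) * (((q : ℕ) : E) * ((w : E))⁻¹)
    field_simp

end Base

/-! ## The modular unit `U_m` and the part `PartRegU` -/

section Defs

variable (E : IntermediateField ℚ A2.Qb) (M q : ℕ) [NeZero M] [NeZero q] [NeZero (M * q)]

/-- The modular unit `D = q¹² Δ(t^q)/Δ(t)` of level `M q` (helper438). -/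
def Dq : A2.Mod.FE E (M * q) := Fermat.Agent.S36.H438.dE E (M * q) q (dvd_mul_left q M)

/-- **The modular unit** `U_m = α(D) / β(D)` of level `M q q`. -/
def Um : A2.Mod.FE E (M * q * q) :=
  A2.Mod.αE E (M * q) q (Dq E M q) * (A2.Mod.βE E (M * q) q (Dq E M q))⁻¹

theorem Um_eq :
    Um E M q = A2.Mod.αE E (M * q) q (Fermat.Agent.S36.H438.dE E (M * q) q (dvd_mul_left q M)) *
      (A2.Mod.βE E (M * q) q (Fermat.Agent.S36.H438.dE E (M * q) q (dvd_mul_left q M)))⁻¹ :=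
  rfl

end Defs

section Parts

variable {R F : Type*} [CommRing R] [Field F] [Algebra R F]

/-- The output of (R-U), without the uniformiser form. -/
structure PartRegUCore (w : R) (x U₀ : F) (V₁ V₂ V₃ : ValuationSubring F) : Prop where
  exists_pair : ∃ U d : chart R ({x} : Set F),
    (U : F) = U₀ ∧ U * d = algebraMap R (chart R ({x} : Set F)) w ^ 12
  mem₁ : U₀ ∈ V₁
  unit₁ : U₀⁻¹ ∈ V₁
  mem₃ : U₀ ∈ V₃
  unit₃ : U₀⁻¹ ∈ V₃
  val₂ : UnitAt V₂ (U₀ * (algebraMap R F w ^ 12)⁻¹)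

/-- The output of (R-U). -/
structure PartRegU (w : R) (q : ℕ) (x U₀ : F) (V₁ V₂ V₃ : ValuationSubring F) : Prop
    extends PartRegUCore w x U₀ V₁ V₂ V₃ where
  val₂' : ∀ t : F, UnifAt V₂ t → UnitAt V₂ (U₀ * (t ^ (12 * (q - 1)))⁻¹)

end Parts

/-- **(R-U), core (leaf-shaped Prop).** -/
def LeafRegUCore : Prop :=
  Leaf fun P E M q _ _ _ w _ _ V₁ V₂ V₃ =>
    PartRegUCore (R := A2.RE P E) w (x3E E M q) (Um E M q) V₁ V₂ V₃

/-- **(R-U) (leaf-shaped Prop).** -/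
def LeafRegU : Prop :=
  Leaf fun P E M q _ _ _ w _ _ V₁ V₂ V₃ =>
    PartRegU (R := A2.RE P E) w q (x3E E M q) (Um E M q) V₁ V₂ V₃

/-! ## Proof -/

section Proof

/-- An `E`-algebra homomorphism commutes with the structure maps of `R_E`. -/
theorem algHom_algebraMap_h356 (P : ValuationSubring A2.Qb) (E : IntermediateField ℚ A2.Qb)
    {N N' : ℕ} (φ : A2.Mod.FE E N →ₐ[E] A2.Mod.FE E N') (r : A2.RE P E) :
    (φ : A2.Mod.FE E N →+* A2.Mod.FE E N') (algebraMap (A2.RE P E) (A2.Mod.FE E N) r) =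
      algebraMap (A2.RE P E) (A2.Mod.FE E N') r := by
  rw [IsScalarTower.algebraMap_apply (A2.RE P E) E (A2.Mod.FE E N),
    IsScalarTower.algebraMap_apply (A2.RE P E) E (A2.Mod.FE E N')]
  exact φ.commutes _

/-- `R_E ⊆ V∞`. -/
theorem algebraMap_mem_vinf_h356 (P : ValuationSubring A2.Qb) (E : IntermediateField ℚ A2.Qb)
    (hdvr : IsDiscreteValuationRing (A2.RE P E)) {N : ℕ}
    {V : ValuationSubring (A2.Mod.FE E N)} (hV : A2.Mod.IsVinf P E N V) (r : A2.RE P E) :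
    algebraMap (A2.RE P E) (A2.Mod.FE E N) r ∈ V := by
  haveI := hdvr
  rw [IsScalarTower.algebraMap_apply (A2.RE P E) E (A2.Mod.FE E N)]
  exact (Fermat.Agent.A2.Mod.H553.algebraMap_mem_iff P E hV _).2 r.2

/-- **(R-U), core.** -/
theorem leafRegUCore_of (hT : LeafTable) (hQ : LeafQep) (hC : LeafChart) : LeafRegUCore := by
  intro P E M q _ _ _ w hStd V₁' V₂' V₁ V₂ V₃ W' W hObj
  have hdvr : IsDiscreteValuationRing (A2.RE P E) := hStd.unram.1.dvr
  have hq : q.Prime := hStd.q_prime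
  have hqN : q ∣ M * q := dvd_mul_left q M
  have hTab := hT P E M q w hStd V₁' V₂' V₁ V₂ V₃ W' W hObj
  have hQep := (hQ P E M q w hStd V₁' V₂' V₁ V₂ V₃ W' W hObj).qep_f
  have hCh := hC P E M q w hStd V₁' V₂' V₁ V₂ V₃ W' W hObj
  -- the base
  obtain ⟨u, v, huv, hqw⟩ := exists_unit_q_eq_h356 P E hStd.lies_over hStd.unram hStd.unif
  -- `R_E ⊆ V_i`
  have hR₁' : ∀ r : A2.RE P E, algebraMap (A2.RE P E) (A2.Mod.FE E (M * q)) r ∈ V₁' :=
    algebraMap_mem_vinf_h356 P E hdvr hObj.vinf'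
  have hR₁ : ∀ r : A2.RE P E, algebraMap (A2.RE P E) (A2.Mod.FE E (M * q * q)) r ∈ V₁ :=
    algebraMap_mem_vinf_h356 P E hdvr hObj.vinf
  have hR₂ : ∀ r : A2.RE P E, algebraMap (A2.RE P E) (A2.Mod.FE E (M * q * q)) r ∈ V₂ := by
    intro r
    have h := hR₁' r
    rw [← hObj.mid, ValuationSubring.mem_comap, algHom_algebraMap_h356] at h
    exact h
  have hR₃ : ∀ r : A2.RE P E, algebraMap (A2.RE P E) (A2.Mod.FE E (M * q * q)) r ∈ V₃ := by
    intro r
    rw [hObj.vzero, ValuationSubring.mem_comap]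
    have e : (W : A2.Mod.FE E (M * q * q) →+* A2.Mod.FE E (M * q * q))
        (algebraMap (A2.RE P E) (A2.Mod.FE E (M * q * q)) r) =
        algebraMap (A2.RE P E) (A2.Mod.FE E (M * q * q)) r := by
      rw [IsScalarTower.algebraMap_apply (A2.RE P E) E (A2.Mod.FE E (M * q * q))]
      exact W.commutes _
    rw [e]
    exact hR₁ r
  have hw0 : algebraMap (A2.RE P E) (A2.Mod.FE E (M * q * q)) w ≠ 0 := by
    rw [IsScalarTower.algebraMap_apply (A2.RE P E) E (A2.Mod.FE E (M * q * q))]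
    refine (map_ne_zero_iff _ (algebraMap E (A2.Mod.FE E (M * q * q))).injective).mpr ?_
    intro h0
    exact hStd.unif.ne_zero (Subtype.ext h0)
  -- the unit pair of level `M q`
  have hDD' : Dq E M q * Fermat.Agent.S36.H438.uE' E (M * q) q hqN
      = algebraMap (A2.RE P E) (A2.Mod.FE E (M * q)) (u ^ 12 * w ^ 12) := by
    rw [Dq, Fermat.Agent.S36.H438.dE_mul_uE',
      IsScalarTower.algebraMap_apply (A2.RE P E) E (A2.Mod.FE E (M * q))]
    congr 1
    show ((q : ℕ) : E) ^ 12 = ((u : E) ^ 12 * (w : E) ^ 12)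
    rw [hqw]
    ring
  obtain ⟨hD'V, hD'inv⟩ := Fermat.Agent.S36.H438.uE'_unit_vinf P E (M * q) q hqN hObj.vinf'
  obtain ⟨hDV, hDinv⟩ := Fermat.Agent.S36.H438.dE_unit_vzero P E (M * q) q M (Nat.mul_comm M q)
    hqN W' hObj.vinf' hObj.fricke'
  rw [← hObj.vzero'] at hDV hDinv
  have hDch : Dq E M q ∈ chart (A2.RE P E) ({A2.Mod.xE E M q} : Set (A2.Mod.FE E (M * q))) :=
    Fermat.Agent.S36.H438.dE_mem_chartAlg P E M q hq
  have hD'ch : Fermat.Agent.S36.H438.uE' E (M * q) q hqN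
      ∈ chart (A2.RE P E) ({A2.Mod.xE E M q} : Set (A2.Mod.FE E (M * q))) :=
    Fermat.Agent.S36.H438.uE'_mem_chartAlg P E M q hq
  obtain ⟨U, d, hU, hUd, hU₁, hU₁i, hU₃, hU₃i, hU₂⟩ := regU_abs_h356 w (v ^ 12) (u ^ 12)
    (by rw [← mul_pow, mul_comm, huv, one_pow])
    (chart (A2.RE P E) ({x3E E M q} : Set (A2.Mod.FE E (M * q * q)))) V₁ V₂ V₃ V₁' V₂'
    (A2.Mod.αE E (M * q) q : A2.Mod.FE E (M * q) →+* A2.Mod.FE E (M * q * q))
    (A2.Mod.βE E (M * q) q : A2.Mod.FE E (M * q) →+* A2.Mod.FE E (M * q * q))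
    (algHom_algebraMap_h356 P E _) (algHom_algebraMap_h356 P E _) hw0 hR₁ hR₂ hR₃ hQep
    hTab.comap_α₁ hTab.comap_α₂ hTab.comap_α₃ hTab.comap_β₁ hTab.comap_β₂ hTab.comap_β₃
    (Dq E M q) (Fermat.Agent.S36.H438.uE' E (M * q) q hqN) hDD'
    hD'V hD'inv hDV hDinv
    (hCh.chart_α _ hDch) (hCh.chart_α _ hD'ch) (hCh.chart_β _ hDch) (hCh.chart_β _ hD'ch)
  have hUm : (U : A2.Mod.FE E (M * q * q)) = Um E M q := hU
  exact
    { exists_pair := ⟨U, d, hUm, hUd⟩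
      mem₁ := hUm ▸ hU₁
      unit₁ := hUm ▸ hU₁i
      mem₃ := hUm ▸ hU₃
      unit₃ := hUm ▸ hU₃i
      val₂ := hUm ▸ hU₂ }

/-- **(R-U).** -/
theorem leafRegU_of (hT : LeafTable) (hQ : LeafQep) (hC : LeafChart) (hV : LeafVal) :
    LeafRegU := by
  intro P E M q _ _ _ w hStd V₁' V₂' V₁ V₂ V₃ W' W hObj
  have hcore := leafRegUCore_of hT hQ hC P E M q w hStd V₁' V₂' V₁ V₂ V₃ W' W hObj
  obtain ⟨t₀, ht₀, hwt₀⟩ := (hV P E M q w hStd V₁' V₂' V₁ V₂ V₃ W' W hObj).ram₂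
  refine { toPartRegUCore := hcore, val₂' := fun t ht => ?_ }
  exact unitAt_div_unif_pow_h356 V₂ _ _ t 12 (q - 1) hcore.val₂
    (unitAt_div_pow_of_unif_h356 V₂ _ t₀ t (q - 1) ht₀ hwt₀ ht)

end Proof

end Fermat.Agent.S36.Mod3.H356

end
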