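import Fermat.Agent.S36.Eng.Spec

/-!
# S36 / MOD3, cell REG, piece (R-U): the modular unit `U_m`, abstract part (helper356)

Vocabulary of `S36/Eng/Spec.lean` only (`Qep3`, `UnitAt`, `UnifAt`), Mathlib otherwise.

Setting: fields `F'` (level `M q`), `F` (level `M q q`), ring homomorphisms `α β : F' → F`
compatible with the structure maps of `R`, valuation subrings `V₁ V₂ V₃` of `F` and `V₁' V₂'`
of `F'` with the comap table of `Eng.TripleCtx`, a chart `B ⊆ F` with `Qep3 w B V₁ V₂ V₃`, and a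
UNIT PAIR `D · D' = ε' w ^ 12` of level `M q` (`ε'` a unit of `R`), `D'` a unit of `V₁'`, `D` a
unit of `V₂'`, such that `α D, α D', β D, β D' ∈ B`.

Then `U = α D / β D` (`= β D' / α D'`) satisfies

* `U ∈ B`, and `d = ε · α D' · β D ∈ B` has `U · d = w ^ 12`;
* `U` is a unit of `V₁` and of `V₃`;
* `U / w ^ 12` is a unit of `V₂`  (hence `U / t ^ (12 e)` for a uniformiser `t` of `V₂` with
  `w / t ^ e` a unit).

These are the hypotheses `hUd`, `hU₁`, `hU₃`, `hU₂` of `S36.H878.principalAt_of_unit_self'`.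

* `qep3_pow_h356`   : `Qep3` iterated;
* `regU_abs_h356`   : the statement above;
* `unitAt_div_unif_pow_h356` : from `w ^ 12` to `t ^ (12 e)`.
-/

set_option autoImplicit false
set_option linter.style.haveILetI false
set_option linter.unusedSectionVars false

namespace Fermat.Agent.S36.Mod3.H356

open Fermat.Agent.S36.Eng

section Abs

variable {R F F' : Type*} [CommRing R] [Field F] [Algebra R F] [Field F'] [Algebra R F']

/-- `Qep3`, iterated: an element `b / w ^ k` (`b ∈ B`) of `V₁ ∩ V₂ ∩ V₃` lies in `B`. -/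
theorem qep3_pow_h356 (w : R) (B : Subalgebra R F) (V₁ V₂ V₃ : ValuationSubring F)
    (hw0 : algebraMap R F w ≠ 0)
    (hw₁ : algebraMap R F w ∈ V₁) (hw₂ : algebraMap R F w ∈ V₂) (hw₃ : algebraMap R F w ∈ V₃)
    (hqep : Qep3 w B V₁ V₂ V₃) (k : ℕ) (b : B)
    (h₁ : (b : F) * (algebraMap R F w ^ k)⁻¹ ∈ V₁)
    (h₂ : (b : F) * (algebraMap R F w ^ k)⁻¹ ∈ V₂)
    (h₃ : (b : F) * (algebraMap R F w ^ k)⁻¹ ∈ V₃) :
    ∃ c : B, (c : F) = (b : F) * (algebraMap R F w ^ k)⁻¹ := by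
  induction k generalizing b with
  | zero => exact ⟨b, by simp⟩
  | succ k ih =>
    have e : (b : F) * (algebraMap R F w)⁻¹
        = (b : F) * (algebraMap R F w ^ (k + 1))⁻¹ * algebraMap R F w ^ k := by
      have hk0 : algebraMap R F w ^ k ≠ 0 := pow_ne_zero k hw0
      rw [pow_succ, mul_inv]
      field_simp
    obtain ⟨c, hc⟩ := hqep b
      (by rw [e]; exact V₁.mul_mem _ _ h₁ (pow_mem hw₁ k))
      (by rw [e]; exact V₂.mul_mem _ _ h₂ (pow_mem hw₂ k))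
      (by rw [e]; exact V₃.mul_mem _ _ h₃ (pow_mem hw₃ k))
    have hcF : (b : F) = algebraMap R F w * (c : F) := by
      have := congrArg (fun t : B => (t : F)) hc
      simpa using this
    have e' : (c : F) * (algebraMap R F w ^ k)⁻¹
        = (b : F) * (algebraMap R F w ^ (k + 1))⁻¹ := by
      rw [hcF, pow_succ, mul_inv]
      field_simp
    obtain ⟨c', hc'⟩ := ih c (by rw [e']; exact h₁) (by rw [e']; exact h₂) (by rw [e']; exact h₃)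
    exact ⟨c', by rw [hc', e']⟩

/-- Membership in a comap. -/
theorem mem_of_comap_eq_h356 {α : F' →+* F} {V : ValuationSubring F} {V' : ValuationSubring F'}
    (h : V.comap α = V') {x : F'} (hx : x ∈ V') : α x ∈ V := by
  rw [← h] at hx
  exact hx

/-- **(R-U), abstract.** -/
theorem regU_abs_h356 (w ε ε' : R) (hεε' : ε * ε' = 1)
    (B : Subalgebra R F) (V₁ V₂ V₃ : ValuationSubring F) (V₁' V₂' : ValuationSubring F')
    (α β : F' →+* F)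
    (hαR : ∀ r : R, α (algebraMap R F' r) = algebraMap R F r)
    (hβR : ∀ r : R, β (algebraMap R F' r) = algebraMap R F r)
    (hw0 : algebraMap R F w ≠ 0)
    (hR₁ : ∀ r : R, algebraMap R F r ∈ V₁) (hR₂ : ∀ r : R, algebraMap R F r ∈ V₂)
    (hR₃ : ∀ r : R, algebraMap R F r ∈ V₃)
    (hqep : Qep3 w B V₁ V₂ V₃)
    (c₁α : V₁.comap α = V₁') (c₂α : V₂.comap α = V₁') (c₃α : V₃.comap α = V₂')
    (c₁β : V₁.comap β = V₁') (c₂β : V₂.comap β = V₂') (c₃β : V₃.comap β = V₂')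
    (D D' : F') (hDD' : D * D' = algebraMap R F' (ε' * w ^ 12))
    (hD'₁ : D' ∈ V₁') (hD'₁i : D'⁻¹ ∈ V₁') (hD₂ : D ∈ V₂') (hD₂i : D⁻¹ ∈ V₂')
    (hαD : α D ∈ B) (hαD' : α D' ∈ B) (hβD : β D ∈ B) (hβD' : β D' ∈ B) :
    ∃ U d : B, (U : F) = α D * (β D)⁻¹ ∧ U * d = algebraMap R B w ^ 12 ∧
      (U : F) ∈ V₁ ∧ (U : F)⁻¹ ∈ V₁ ∧ (U : F) ∈ V₃ ∧ (U : F)⁻¹ ∈ V₃ ∧
      UnitAt V₂ ((U : F) * (algebraMap R F w ^ 12)⁻¹) := by
  -- the constants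
  set wF : F := algebraMap R F w with hwF
  set eF : F := algebraMap R F ε with heF
  set eF' : F := algebraMap R F ε' with heF'
  have hee : eF * eF' = 1 := by rw [heF, heF', ← map_mul, hεε', map_one]
  have heF0 : eF ≠ 0 := left_ne_zero_of_mul_eq_one hee
  have heF'0 : eF' ≠ 0 := right_ne_zero_of_mul_eq_one hee
  have hw12 : wF ^ 12 ≠ 0 := pow_ne_zero 12 hw0
  have hc : algebraMap R F (ε' * w ^ 12) = eF' * wF ^ 12 := by
    rw [map_mul, map_pow]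
  -- the relations `α D · α D' = β D · β D' = ε' w ^ 12`
  have hα : α D * α D' = eF' * wF ^ 12 := by rw [← map_mul, hDD', hαR, hc]
  have hβ : β D * β D' = eF' * wF ^ 12 := by rw [← map_mul, hDD', hβR, hc]
  have hc0 : eF' * wF ^ 12 ≠ 0 := mul_ne_zero heF'0 hw12
  have hαD0 : α D ≠ 0 := left_ne_zero_of_mul (hα ▸ hc0)
  have hαD'0 : α D' ≠ 0 := right_ne_zero_of_mul (hα ▸ hc0)
  have hβD0 : β D ≠ 0 := left_ne_zero_of_mul (hβ ▸ hc0)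
  have hβD'0 : β D' ≠ 0 := right_ne_zero_of_mul (hβ ▸ hc0)
  -- the two expressions of `U`
  have hU' : α D * (β D)⁻¹ = β D' * (α D')⁻¹ := by
    have h1 : α D * α D' = β D * β D' := by rw [hα, hβ]
    field_simp
    linear_combination h1
  -- the element of `B` above `w ^ 12 U`
  have hb : eF * (α D * β D') ∈ B := by
    have h := B.smul_mem (B.mul_mem hαD hβD') ε
    rwa [Algebra.smul_def] at h
  have hbU : eF * (α D * β D') * (wF ^ 12)⁻¹ = α D * (β D)⁻¹ := by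
    have h1 : β D' = eF' * wF ^ 12 * (β D)⁻¹ := by
      rw [← hβ]; field_simp
    rw [h1]
    have : eF * (α D * (eF' * wF ^ 12 * (β D)⁻¹)) * (wF ^ 12)⁻¹
        = (eF * eF') * (α D * (β D)⁻¹) * (wF ^ 12 * (wF ^ 12)⁻¹) := by ring
    rw [this, hee, mul_inv_cancel₀ hw12, one_mul, mul_one]
  -- valuations: `V₁`
  have hαD'₁ : α D' ∈ V₁ := mem_of_comap_eq_h356 c₁α hD'₁
  have hαD'₁i : (α D')⁻¹ ∈ V₁ := by
    rw [← map_inv₀]; exact mem_of_comap_eq_h356 c₁α hD'₁i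
  have hβD'₁ : β D' ∈ V₁ := mem_of_comap_eq_h356 c₁β hD'₁
  have hβD'₁i : (β D')⁻¹ ∈ V₁ := by
    rw [← map_inv₀]; exact mem_of_comap_eq_h356 c₁β hD'₁i
  have hU₁ : α D * (β D)⁻¹ ∈ V₁ := by
    rw [hU']; exact V₁.mul_mem _ _ hβD'₁ hαD'₁i
  have hU₁i : (α D * (β D)⁻¹)⁻¹ ∈ V₁ := by
    rw [hU', mul_inv, inv_inv]; exact V₁.mul_mem _ _ hβD'₁i hαD'₁
  -- valuations: `V₃`
  have hαD₃ : α D ∈ V₃ := mem_of_comap_eq_h356 c₃α hD₂
  have hαD₃i : (α D)⁻¹ ∈ V₃ := by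
    rw [← map_inv₀]; exact mem_of_comap_eq_h356 c₃α hD₂i
  have hβD₃ : β D ∈ V₃ := mem_of_comap_eq_h356 c₃β hD₂
  have hβD₃i : (β D)⁻¹ ∈ V₃ := by
    rw [← map_inv₀]; exact mem_of_comap_eq_h356 c₃β hD₂i
  have hU₃ : α D * (β D)⁻¹ ∈ V₃ := V₃.mul_mem _ _ hαD₃ hβD₃i
  have hU₃i : (α D * (β D)⁻¹)⁻¹ ∈ V₃ := by
    rw [mul_inv, inv_inv]; exact V₃.mul_mem _ _ hαD₃i hβD₃
  -- valuations: `V₂`
  have hαD'₂ : α D' ∈ V₂ := mem_of_comap_eq_h356 c₂α hD'₁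
  have hαD'₂i : (α D')⁻¹ ∈ V₂ := by
    rw [← map_inv₀]; exact mem_of_comap_eq_h356 c₂α hD'₁i
  have hβD₂ : β D ∈ V₂ := mem_of_comap_eq_h356 c₂β hD₂
  have hβD₂i : (β D)⁻¹ ∈ V₂ := by
    rw [← map_inv₀]; exact mem_of_comap_eq_h356 c₂β hD₂i
  have hUw : α D * (β D)⁻¹ * (wF ^ 12)⁻¹ = eF' * ((α D')⁻¹ * (β D)⁻¹) := by
    have h1 : α D = eF' * wF ^ 12 * (α D')⁻¹ := by
      rw [← hα]; field_simp
    rw [h1]
    field_simp
  have hUw₂ : α D * (β D)⁻¹ * (wF ^ 12)⁻¹ ∈ V₂ := by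
    rw [hUw]; exact V₂.mul_mem _ _ (hR₂ ε') (V₂.mul_mem _ _ hαD'₂i hβD₂i)
  have hUw₂i : (α D * (β D)⁻¹ * (wF ^ 12)⁻¹)⁻¹ ∈ V₂ := by
    have h2 : (α D * (β D)⁻¹ * (wF ^ 12)⁻¹)⁻¹ = eF * (α D' * β D) := by
      rw [hUw, mul_inv, mul_inv, inv_inv, inv_inv]
      have : eF'⁻¹ = eF := (eq_inv_of_mul_eq_one_left hee).symm
      rw [this]
    rw [h2]; exact V₂.mul_mem _ _ (hR₂ ε) (V₂.mul_mem _ _ hαD'₂ hβD₂)
  have hU₂ : α D * (β D)⁻¹ ∈ V₂ := by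
    have h3 : α D * (β D)⁻¹ = α D * (β D)⁻¹ * (wF ^ 12)⁻¹ * wF ^ 12 := by
      field_simp
    rw [h3]; exact V₂.mul_mem _ _ hUw₂ (pow_mem (hR₂ w) 12)
  -- `U ∈ B` by `Qep3`
  obtain ⟨U, hU⟩ := qep3_pow_h356 w B V₁ V₂ V₃ hw0 (hR₁ w) (hR₂ w) (hR₃ w) hqep 12
    ⟨_, hb⟩ (by rw [hbU]; exact hU₁) (by rw [hbU]; exact hU₂) (by rw [hbU]; exact hU₃)
  have hUF : (U : F) = α D * (β D)⁻¹ := by rw [hU]; exact hbU
  -- the cofactor
  have hd : eF * (α D' * β D) ∈ B := by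
    have h := B.smul_mem (B.mul_mem hαD' hβD) ε
    rwa [Algebra.smul_def] at h
  refine ⟨U, ⟨_, hd⟩, hUF, ?_, ?_, ?_, ?_, ?_, ?_⟩
  · apply Subtype.ext
    have h4 : ((algebraMap R B w ^ 12 : B) : F) = wF ^ 12 := by
      simp [hwF]
    rw [h4]
    show (U : F) * (eF * (α D' * β D)) = wF ^ 12
    rw [hUF, hU']
    have : β D' * (α D')⁻¹ * (eF * (α D' * β D))
        = eF * (β D * β D') * ((α D')⁻¹ * α D') := by ring
    rw [this, hβ, inv_mul_cancel₀ hαD'0, mul_one, ← mul_assoc, hee, one_mul]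
  · rw [hUF]; exact hU₁
  · rw [hUF]; exact hU₁i
  · rw [hUF]; exact hU₃
  · rw [hUF]; exact hU₃i
  · rw [hUF]
    refine ⟨?_, hUw₂, hUw₂i⟩
    exact mul_ne_zero (mul_ne_zero hαD0 (inv_ne_zero hβD0)) (inv_ne_zero hw12)

/-- From `U / w ^ k` to `U / t ^ (k e)`, `t` a uniformiser with `w / t ^ e` a unit. -/
theorem unitAt_div_unif_pow_h356 (V : ValuationSubring F) (U wF t : F) (k e : ℕ)
    (hU : UnitAt V (U * (wF ^ k)⁻¹)) (ht : UnitAt V (wF * (t ^ e)⁻¹)) :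
    UnitAt V (U * (t ^ (k * e))⁻¹) := by
  obtain ⟨hU0, hU1, hU2⟩ := hU
  obtain ⟨ht0, ht1, ht2⟩ := ht
  have hw0 : wF ≠ 0 := left_ne_zero_of_mul ht0
  have hte0 : (t ^ e)⁻¹ ≠ 0 := right_ne_zero_of_mul ht0
  have hte : t ^ e ≠ 0 := fun h => hte0 (by rw [h, inv_zero])
  have hwk : wF ^ k ≠ 0 := pow_ne_zero k hw0
  have hUne : U ≠ 0 := left_ne_zero_of_mul hU0
  have h2 : ((t ^ e) ^ k) ≠ 0 := pow_ne_zero k hte
  have h1 : t ^ (k * e) = (t ^ e) ^ k := by rw [mul_comm, pow_mul]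
  have hkey : U * (t ^ (k * e))⁻¹ = U * (wF ^ k)⁻¹ * (wF * (t ^ e)⁻¹) ^ k := by
    rw [h1, mul_pow, inv_pow]
    field_simp
  have hkey' : (U * (t ^ (k * e))⁻¹)⁻¹ = (U * (wF ^ k)⁻¹)⁻¹ * ((wF * (t ^ e)⁻¹)⁻¹) ^ k := by
    rw [hkey, mul_inv, inv_pow]
  refine ⟨?_, ?_, ?_⟩
  · rw [hkey]; exact mul_ne_zero hU0 (pow_ne_zero k ht0)
  · rw [hkey]; exact V.mul_mem _ _ hU1 (pow_mem ht1 k)
  · rw [hkey']
    exact V.mul_mem _ _ hU2 (pow_mem ht2 k)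

/-- Two uniformisers differ by a unit: `w / t₀ ^ e` a unit ⟹ `w / t ^ e` a unit. -/
theorem unitAt_div_pow_of_unif_h356 (V : ValuationSubring F) (wF t₀ t : F) (e : ℕ)
    (ht₀ : UnifAt V t₀) (h₀ : UnitAt V (wF * (t₀ ^ e)⁻¹)) (ht : UnifAt V t) :
    UnitAt V (wF * (t ^ e)⁻¹) := by
  obtain ⟨ht₀0, ht₀m, ht₀d⟩ := ht₀
  obtain ⟨ht0, htm, htd⟩ := ht
  obtain ⟨h0, h1, h2⟩ := h₀
  have hw0 : wF ≠ 0 := left_ne_zero_of_mul h0
  have ha : t₀ * t⁻¹ ∈ V := htd t₀ ht₀m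
  have hb : t * t₀⁻¹ ∈ V := ht₀d t htm
  have hp0 : t₀ ^ e ≠ 0 := pow_ne_zero e ht₀0
  have hp : t ^ e ≠ 0 := pow_ne_zero e ht0
  have hkey : wF * (t ^ e)⁻¹ = wF * (t₀ ^ e)⁻¹ * (t₀ * t⁻¹) ^ e := by
    rw [mul_pow, inv_pow]
    field_simp
  have hkey' : (wF * (t ^ e)⁻¹)⁻¹ = (wF * (t₀ ^ e)⁻¹)⁻¹ * (t * t₀⁻¹) ^ e := by
    rw [mul_pow, inv_pow]
    field_simp
  refine ⟨mul_ne_zero hw0 (inv_ne_zero hp), ?_, ?_⟩
  · rw [hkey]; exact V.mul_mem _ _ h1 (pow_mem ha e)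
  · rw [hkey']; exact V.mul_mem _ _ h2 (pow_mem hb e)

end Abs

end Fermat.Agent.S36.Mod3.H356
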